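/-
GATE-F (S40), node GF-EFLAT part 1 (helper57): **the frozen-flat shape from a finite `Δ`-stable
order**, generic.  `ρbar : ResidualGaloisRep k`, `k` a finite field: if the `G_ℚ`-module `ρbar.V`
carries a finite `Δ`-stable `ℤ_(p)`-order (`HasFinOrder p`, GH/Closure vocabulary = the output of
the GH core chain, `GF/EFrame/CoreMain.hasFinOrder_of_lSpaceHyp`), then
`(GaloisRepAdic.ofResidualGaloisRep ρbar).IsFlatAt p` (the FROZEN `IsFlatAt`), which is the input
of `GP/Flat/CasesFlat.cases_of_isFlatAt` (ordinary shape ∨ level-two shape).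
-/
import Mathlib
import Fermat.Agent.GH.S32.FlatMod

set_option autoImplicit false
set_option linter.unusedSectionVars false

namespace Fermat.Agent.GF.EFlat

open Fermat.Agent.GH.Closure Fermat.Agent.GH.S32

local notation "Qb" => AlgebraicClosure ℚ
local notation "GQ" => (AlgebraicClosure ℚ ≃ₐ[ℚ] AlgebraicClosure ℚ)

variable {p : ℕ} [Fact p.Prime]

/-- `HasFinOrder` ⟹ the frozen finite-flat-model shape `FlatMod`. -/
theorem flatMod_of_hasFinOrder {M : Type} [AddCommGroup M] [Finite M] {act : GQ → M →+ M}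
    (h : HasFinOrder p act) : FlatMod p M (fun σ x => act σ x) := by
  obtain ⟨H, hH, hfin⟩ := h
  exact flatMod_of_isStableOrder (isStableOrder_of_isDeltaOrder hH hfin)

/-- the level action as additive maps. -/
noncomputable def levelActAdd {A : Type} [CommRing A] [IsLocalRing A] (ρ : GaloisRepAdic A) (I : Ideal A)
    (σ : GQ) : (ρ.V ⧸ (I • (⊤ : Submodule A ρ.V))) →+ (ρ.V ⧸ (I • (⊤ : Submodule A ρ.V))) :=
  (ρ.levelAction I σ).toAddMonoidHom

/-- **frozen `IsFlatAt` from a finite `Δ`-stable order on `V`** (any local coefficient ring with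
finite residue field and finite `V`). -/
theorem isFlatAt_of_hasFinOrder {A : Type} [CommRing A] [IsLocalRing A]
    [Finite (IsLocalRing.ResidueField A)] (ρ : GaloisRepAdic A) [Finite ρ.V]
    (h : HasFinOrder p (fun σ => (ρ.ρ σ).toAddMonoidHom)) : ρ.IsFlatAt p := by
  rw [isFlatAt_iff]
  refine ⟨inferInstance, fun I _ => ?_⟩
  have hq : HasFinOrder p (levelActAdd ρ I) :=
    h.of_surjective (Submodule.mkQ (I • (⊤ : Submodule A ρ.V))).toAddMonoidHom
      (Submodule.mkQ_surjective _) (fun σ x => rfl)
  have : Finite (ρ.V ⧸ (I • (⊤ : Submodule A ρ.V))) :=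
    Finite.of_surjective _ (Submodule.mkQ_surjective (I • (⊤ : Submodule A ρ.V)))
  exact flatMod_of_hasFinOrder hq

/-- **the residual case**: `k` a finite field. -/
theorem isFlatAt_ofResidual_of_hasFinOrder {k : Type} [Field k] [Finite k]
    (ρbar : ResidualGaloisRep k)
    (h : HasFinOrder p (fun σ => (ρbar.ρ σ).toAddMonoidHom)) :
    (GaloisRepAdic.ofResidualGaloisRep ρbar).IsFlatAt p := by
  have : Finite (IsLocalRing.ResidueField k) :=
    Finite.of_surjective (IsLocalRing.residue k) Ideal.Quotient.mk_surjective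
  have : Finite ρbar.V := Module.finite_of_finite k
  have : Finite (GaloisRepAdic.ofResidualGaloisRep ρbar).V := ‹Finite ρbar.V›
  exact isFlatAt_of_hasFinOrder (GaloisRepAdic.ofResidualGaloisRep ρbar) h

end Fermat.Agent.GF.EFlat
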