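/-
GATE-F (S40) / S59 engine E7, node GF-EFLAT part 2 (helper57): **`E[p]` is FLAT at a good prime
`p ≠ 2`, in the FROZEN sense.**  `W : WeierstrassCurve ℤ`, `¬ p ∣ W.Δ`: any residual representation
`ρbar` (over a finite field) whose underlying `G_ℚ`-module is equivariantly isomorphic, as an
additive group, to the frozen `E[p] = torsionBy ℤ ((W_ℚ)⁄ℚ̄).Point p` satisfies
`(GaloisRepAdic.ofResidualGaloisRep ρbar).IsFlatAt p`; hence (GP/Flat/CasesFlat) it has the
ordinary shape or the level-two shape at every place over `p`.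
Chain: helper75 `GF/EFrame/FinOrd.hasFinOrder_torsion` (finite flat order on the frozen `E[p]`)
⟹ `HasFinOrder.of_injective` ⟹ `GF/EFlat/Generic.isFlatAt_ofResidual_of_hasFinOrder`.
-/
import Mathlib
import Fermat.Agent.GF.EFlat.Generic
import Fermat.Agent.GF.EFrame.FinOrd

set_option autoImplicit false
set_option linter.unusedSectionVars false

namespace Fermat.Agent.GF.EFlat

open Fermat.Agent.GH.Closure Fermat.Agent.GF.EFrame

local notation "Qb" => AlgebraicClosure ℚ
local notation "GQ" => (AlgebraicClosure ℚ ≃ₐ[ℚ] AlgebraicClosure ℚ)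

variable {p : ℕ} [Fact p.Prime]

/-- a finite flat order on any `G_ℚ`-module embedded equivariantly in the frozen `E[p]`. -/
theorem hasFinOrder_of_injective_torsion (W : WeierstrassCurve ℤ) (hp2 : p ≠ 2)
    (hgood : ¬ (p : ℤ) ∣ W.Δ) {N : Type*} [AddCommGroup N] (actN : GQ → N →+ N)
    (j : N →+ Submodule.torsionBy ℤ (Efrozen W).Point (p : ℤ)) (hj : Function.Injective j)
    (hjeq : ∀ (σ : GQ) (x : N), j (actN σ x) = σ • j x) : HasFinOrder p actN :=
  (hasFinOrder_torsion W hp2 hgood).of_injective j hj hjeq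

/-- **`E[p]` is flat at a good prime `p ≠ 2`** (frozen `IsFlatAt`), for any residual representation
realising the frozen `E[p]`. -/
theorem isFlatAt_of_equiv_torsion (W : WeierstrassCurve ℤ) (hp2 : p ≠ 2)
    (hgood : ¬ (p : ℤ) ∣ W.Δ) {k : Type} [Field k] [Finite k] (ρbar : ResidualGaloisRep k)
    (e : ρbar.V →+ Submodule.torsionBy ℤ (Efrozen W).Point (p : ℤ)) (he : Function.Injective e)
    (heq : ∀ (σ : GQ) (v : ρbar.V), e (ρbar.ρ σ v) = σ • e v) :
    (GaloisRepAdic.ofResidualGaloisRep ρbar).IsFlatAt p :=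
  isFlatAt_ofResidual_of_hasFinOrder ρbar
    (hasFinOrder_of_injective_torsion W hp2 hgood _ e he (fun σ v => heq σ v))

end Fermat.Agent.GF.EFlat
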